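import Mathlib

/-!
# S55, layer KL (architect helper53), leaf KL-QInf: injectivity of inflation in degree 2
(cochain form)                                                                   (helper73)

Mathlib-only core: a direct cochain proof of the injectivity part of inflation–restriction in
degree 2.  Let `V' ≤ V` be normal subgroups of `G`, `B` a `G`-module with
`H¹(V ⧸ V', B^{V'}) = 0`.  If a 2-cochain `f` inflated from `(G ⧸ V, B^V)` is the coboundary of a
1-cochain inflated from `(G ⧸ V', B^{V'})`, then it is the coboundary of a 1-cochain inflated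
from `(G ⧸ V, B^V)`.

The statement `qInf_core` is the Spec `QInfSpec` of layer KL with the definitions `IsAt₁`,
`IsAt₂`, `IsCobAt₂`, `Z2At` unfolded; it does not depend on any interface file.
-/

set_option autoImplicit false

open CategoryTheory groupCohomology

namespace Fermat.Agent.S55.KL.H73

/-- If `H¹(G, A) = 0` then every 1-cocycle is a coboundary (elementwise form). -/
lemma exists_cob_of_subsingleton_H1 {k G : Type} [CommRing k] [Group G] (A : Rep.{0, 0, 0} k G)
    (h : Subsingleton (H1 A)) (z : G → A) (hz : z ∈ cocycles₁ A) :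
    ∃ b : A, ∀ g : G, A.ρ g b - b = z g := by
  have h0 : H1π A ⟨z, hz⟩ = 0 := Subsingleton.elim _ _
  have h1 := (H1π_eq_zero_iff (A := A) ⟨z, hz⟩).1 h0
  obtain ⟨b, hb⟩ := h1
  refine ⟨b, fun g => ?_⟩
  have := congrFun hb g
  simpa using this

section

variable {G : Type} [Group G] (B : Rep.{0, 0, 0} ℤ G) (V' V : Subgroup G) [V'.Normal]

omit [V'.Normal] in
/-- A right-`V'`-invariant function takes the same value on any representative of a coset. -/
lemma apply_out_eq {X : Type*} (x : G → X) (hx : ∀ g s : G, s ∈ V' → x (g * s) = x g) (g : G) :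
    x (Quotient.out (QuotientGroup.mk g : G ⧸ V')) = x g := by
  obtain ⟨h, hh⟩ := QuotientGroup.mk_out_eq_mul V' g
  rw [hh]
  exact hx g h h.2

/-- `H¹(V ⧸ V', B^{V'}) = 0` in elementwise form: a function `x` on `G` with values in `B^{V'}`,
right-`V'`-invariant, and satisfying the cocycle identity on `V`, is a coboundary on `V`. -/
lemma exists_cob_on (hle : V' ≤ V)
    (h1 : Subsingleton (H1 (Rep.res (V.map (QuotientGroup.mk' V')).subtype
      (B.quotientToInvariants V'))))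
    (x : G → B) (hxc : ∀ g s : G, s ∈ V' → x (g * s) = x g)
    (hxi : ∀ g s : G, s ∈ V' → B.ρ s (x g) = x g)
    (hcoc : ∀ s t : G, s ∈ V → t ∈ V → x (s * t) = B.ρ s (x t) + x s) :
    ∃ b : B, (∀ s ∈ V', B.ρ s b = b) ∧ ∀ s ∈ V, B.ρ s b - b = x s := by
  classical
  -- the cocycle on `W = V/V'` with values in `B^{V'}`
  let W : Subgroup (G ⧸ V') := V.map (QuotientGroup.mk' V')
  let A : Rep.{0, 0, 0} ℤ ↥W := Rep.res W.subtype (B.quotientToInvariants V')
  have hout : ∀ w : ↥W, Quotient.out (w : G ⧸ V') ∈ V := by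
    rintro ⟨w, s, hs, rfl⟩
    obtain ⟨h, hh⟩ := QuotientGroup.mk_out_eq_mul V' s
    show Quotient.out (QuotientGroup.mk s : G ⧸ V') ∈ V
    rw [hh]
    exact V.mul_mem hs (hle h.2)
  let z : ↥W → A := fun w => ⟨x (Quotient.out (w : G ⧸ V')), fun s => hxi _ s.1 s.2⟩
  have hzval : ∀ w : ↥W, (z w).1 = x (Quotient.out (w : G ⧸ V')) := fun _ => rfl
  have hρ : ∀ (w : ↥W) (a : A), (A.ρ w a).1 = B.ρ (Quotient.out (w : G ⧸ V')) a.1 := by
    intro w a
    have key : ∀ (q : G ⧸ V') (g : G), q = QuotientGroup.mk g →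
        ((B.quotientToInvariants V').ρ q a).1 = B.ρ g a.1 := by
      rintro _ g rfl
      rfl
    exact key _ _ (QuotientGroup.out_eq' _).symm
  have hz : z ∈ cocycles₁ A := by
    rw [mem_cocycles₁_iff]
    intro w₁ w₂
    apply Subtype.ext
    show (z (w₁ * w₂)).1 = (A.ρ w₁ (z w₂)).1 + (z w₁).1
    rw [hρ, hzval, hzval, hzval]
    have e : ((w₁ * w₂ : ↥W) : G ⧸ V') =
        QuotientGroup.mk (Quotient.out (w₁ : G ⧸ V') * Quotient.out (w₂ : G ⧸ V')) := by
      rw [QuotientGroup.mk_mul, QuotientGroup.out_eq', QuotientGroup.out_eq']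
      rfl
    rw [e, apply_out_eq V' x hxc]
    exact hcoc _ _ (hout w₁) (hout w₂)
  obtain ⟨b, hb⟩ := exists_cob_of_subsingleton_H1 A h1 z hz
  refine ⟨b.1, fun s hs => b.2 ⟨s, hs⟩, fun s hs => ?_⟩
  have hw : (QuotientGroup.mk s : G ⧸ V') ∈ W := ⟨s, hs, rfl⟩
  have h2 : (A.ρ ⟨_, hw⟩ b - b).1 = (z ⟨_, hw⟩).1 := congrArg Subtype.val (hb ⟨_, hw⟩)
  have h3 : (A.ρ ⟨_, hw⟩ b - b).1 = B.ρ s b.1 - b.1 := rfl
  have h4 : (z ⟨_, hw⟩).1 = x s := apply_out_eq V' x hxc s
  rw [← h3, ← h4]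
  exact h2

/-- **KL-QInf, core.**  Injectivity of inflation `H²(G ⧸ V, B^V) → H²(G ⧸ V', B^{V'})` in
cochain form, from `H¹(V ⧸ V', B^{V'}) = 0`. -/
theorem qInf_core [V.Normal] (hle : V' ≤ V)
    (h1 : Subsingleton (H1 (Rep.res (V.map (QuotientGroup.mk' V')).subtype
      (B.quotientToInvariants V'))))
    (f : G × G → B)
    (hf : ∀ g h s t : G, s ∈ V → t ∈ V →
      f (g * s, h * t) = f (g, h) ∧ B.ρ s (f (g, h)) = f (g, h))
    (x : G → B) (hx : ∀ g s : G, s ∈ V' → x (g * s) = x g ∧ B.ρ s (x g) = x g)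
    (hdx : (d₁₂ B).hom x = f) :
    ∃ y : G → B, (∀ g s : G, s ∈ V → y (g * s) = y g ∧ B.ρ s (y g) = y g) ∧
      (d₁₂ B).hom y = f := by
  have hd : ∀ g h : G, f (g, h) = B.ρ g (x h) - x (g * h) + x g := by
    intro g h
    rw [← hdx]
    rfl
  have hc1 : f (1, 1) = x 1 := by
    rw [hd 1 1]
    simp
  have hcV : ∀ s ∈ V, B.ρ s (x 1) = x 1 := by
    intro s hs
    have := (hf 1 1 s 1 hs V.one_mem).2
    rwa [hc1] at this
  have hfV : ∀ s t : G, s ∈ V → t ∈ V → f (s, t) = x 1 := by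
    intro s t hs ht
    have := (hf 1 1 s t hs ht).1
    rwa [one_mul, one_mul, hc1] at this
  have hx₁c : ∀ g s : G, s ∈ V' → x (g * s) - x 1 = x g - x 1 := by
    intro g s hs
    rw [(hx g s hs).1]
  have hx₁i : ∀ g s : G, s ∈ V' → B.ρ s (x g - x 1) = x g - x 1 := by
    intro g s hs
    rw [map_sub, (hx g s hs).2, hcV s (hle hs)]
  have hcoc : ∀ s t : G, s ∈ V → t ∈ V →
      x (s * t) - x 1 = B.ρ s (x t - x 1) + (x s - x 1) := by
    intro s t hs ht
    have h2 := hd s t
    rw [hfV s t hs ht] at h2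
    rw [map_sub, hcV s hs]
    have h3 : x (s * t) = B.ρ s (x t) + x s - x 1 := by
      rw [h2]
      abel
    rw [h3]
    abel
  obtain ⟨b, -, hb⟩ := exists_cob_on B V' V hle h1 (fun g => x g - x 1) hx₁c hx₁i hcoc
  have hdy : ∀ g h : G, f (g, h) = B.ρ g (x h - (B.ρ h b - b)) -
      (x (g * h) - (B.ρ (g * h) b - b)) + (x g - (B.ρ g b - b)) := by
    intro g h
    rw [hd g h, map_sub, map_sub, map_mul]
    simp only [Module.End.mul_apply]
    abel
  have hyV : ∀ s ∈ V, x s - (B.ρ s b - b) = x 1 := by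
    intro s hs
    rw [hb s hs]
    abel
  have hy1 : x 1 - (B.ρ 1 b - b) = x 1 := hyV 1 V.one_mem
  have hyr : ∀ g s : G, s ∈ V →
      x (g * s) - (B.ρ (g * s) b - b) = x g - (B.ρ g b - b) := by
    intro g s hs
    have e1 := hdy g s
    have e2 := hdy g 1
    have e3 : f (g, s) = f (g, 1) := by
      have := (hf g 1 1 s V.one_mem hs).1
      rwa [mul_one, one_mul] at this
    rw [hyV s hs] at e1
    rw [hy1, mul_one] at e2
    rw [e3, e2] at e1
    have e4 : x (g * s) - (B.ρ (g * s) b - b) =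
        (B.ρ g (x 1) - (x (g * s) - (B.ρ (g * s) b - b)) + (x g - (B.ρ g b - b))) -
          (B.ρ g (x 1) - (x g - (B.ρ g b - b)) + (x g - (B.ρ g b - b))) +
            (x (g * s) - (B.ρ (g * s) b - b)) := by
      rw [← e1]
      abel
    rw [e4]
    abel
  refine ⟨fun g => x g - (B.ρ g b - b), fun g s hs => ⟨hyr g s hs, ?_⟩, ?_⟩
  · have e1 := hdy s g
    have e2 := hdy 1 g
    have e3 : f (s, g) = f (1, g) := by
      have := (hf 1 g s 1 hs V.one_mem).1
      rwa [one_mul, mul_one] at this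
    rw [hyV s hs] at e1
    have hρ1 : ∀ a : B.V, B.ρ 1 a = a := fun a => by rw [map_one]; rfl
    rw [hy1, one_mul, hρ1] at e2
    have e5 : x (s * g) - (B.ρ (s * g) b - b) = x g - (B.ρ g b - b) := by
      have : s * g = g * (g⁻¹ * s * g) := by group
      rw [this]
      exact hyr g _ (Subgroup.Normal.conj_mem' inferInstance s hs g)
    rw [e5, e3, e2] at e1
    show B.ρ s (x g - (B.ρ g b - b)) = x g - (B.ρ g b - b)
    have e6 : B.ρ s (x g - (B.ρ g b - b)) =
        (B.ρ s (x g - (B.ρ g b - b)) - (x g - (B.ρ g b - b)) + x 1) -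
          ((x g - (B.ρ g b - b)) - (x g - (B.ρ g b - b)) + x 1) + (x g - (B.ρ g b - b)) := by
      abel
    rw [e6, ← e1]
    abel
  · rw [← hdx]
    funext ⟨g, h⟩
    have e1 := hdy g h
    rw [hd g h] at e1
    show B.ρ g (x h - (B.ρ h b - b)) - (x (g * h) - (B.ρ (g * h) b - b)) +
      (x g - (B.ρ g b - b)) = B.ρ g (x h) - x (g * h) + x g
    exact e1.symm

end

end Fermat.Agent.S55.KL.H73
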